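/-
Combinatorics of the coset space `SL(2,ℤ) ⧸ Γ₀(N)`: basic criteria.
-/
import Mathlib
import Fermat.Prelude.Def_ModularCurve_GenusNumerics

set_option autoImplicit false

namespace Fermat.Agent.Gamma0Comb

open scoped MatrixGroups
open CongruenceSubgroup ModularGroup Matrix

variable {N : ℕ}

lemma det_eq (g : SL(2, ℤ)) : g 0 0 * g 1 1 - g 0 1 * g 1 0 = 1 := by
  have := g.det_coe
  rwa [Matrix.det_fin_two] at this

lemma isCoprime_col (g : SL(2, ℤ)) : IsCoprime (g 0 0) (g 1 0) :=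
  ⟨g 1 1, - g 0 1, by linear_combination det_eq g⟩

lemma inv_mul_apply_one_zero (g h : SL(2, ℤ)) :
    (g⁻¹ * h) 1 0 = g 0 0 * h 1 0 - g 1 0 * h 0 0 := by
  rw [Matrix.SpecialLinearGroup.coe_mul, Matrix.SpecialLinearGroup.SL2_inv_expl,
    Matrix.mul_apply]
  simp [Fin.sum_univ_two]
  ring

lemma mem_Gamma0_iff_dvd (g : SL(2, ℤ)) : g ∈ Gamma0 N ↔ (N : ℤ) ∣ g 1 0 := by
  rw [Gamma0_mem, ZMod.intCast_zmod_eq_zero_iff_dvd]

/-- Two cosets agree iff the `2 × 2` determinant of the first columns vanishes mod `N`. -/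
lemma mk_eq_mk_iff (g h : SL(2, ℤ)) :
    (QuotientGroup.mk g : SL(2, ℤ) ⧸ Gamma0 N) = QuotientGroup.mk h ↔
      (N : ℤ) ∣ g 0 0 * h 1 0 - g 1 0 * h 0 0 := by
  rw [QuotientGroup.eq, mem_Gamma0_iff_dvd, inv_mul_apply_one_zero]

lemma smul_mk (x g : SL(2, ℤ)) :
    x • (QuotientGroup.mk g : SL(2, ℤ) ⧸ Gamma0 N) = QuotientGroup.mk (x * g) := rfl

lemma S_mul_apply_zero_zero (g : SL(2, ℤ)) : (S * g) 0 0 = - g 1 0 := by
  rw [Matrix.SpecialLinearGroup.coe_mul, coe_S, Matrix.mul_apply]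
  simp [Fin.sum_univ_two]

lemma S_mul_apply_one_zero (g : SL(2, ℤ)) : (S * g) 1 0 = g 0 0 := by
  rw [Matrix.SpecialLinearGroup.coe_mul, coe_S, Matrix.mul_apply]
  simp [Fin.sum_univ_two]

lemma T_zpow_mul_apply_zero_zero (n : ℤ) (g : SL(2, ℤ)) :
    (T ^ n * g) 0 0 = g 0 0 + n * g 1 0 := by
  rw [Matrix.SpecialLinearGroup.coe_mul, coe_T_zpow, Matrix.mul_apply]
  simp [Fin.sum_univ_two]

lemma T_zpow_mul_apply_one_zero (n : ℤ) (g : SL(2, ℤ)) :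
    (T ^ n * g) 1 0 = g 1 0 := by
  rw [Matrix.SpecialLinearGroup.coe_mul, coe_T_zpow, Matrix.mul_apply]
  simp [Fin.sum_univ_two]

lemma T_mul_apply_zero_zero (g : SL(2, ℤ)) : (T * g) 0 0 = g 0 0 + g 1 0 := by
  have := T_zpow_mul_apply_zero_zero 1 g
  simpa using this

lemma T_mul_apply_one_zero (g : SL(2, ℤ)) : (T * g) 1 0 = g 1 0 := by
  have := T_zpow_mul_apply_one_zero 1 g
  simpa using this

/-- An element of `SL(2,ℤ)` with prescribed coprime first column. -/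
lemma exists_col {a c : ℤ} (h : IsCoprime a c) : ∃ g : SL(2, ℤ), g 0 0 = a ∧ g 1 0 = c := by
  obtain ⟨u, v, huv⟩ := h
  refine ⟨⟨!![a, -v; c, u], ?_⟩, rfl, rfl⟩
  rw [Matrix.det_fin_two_of]
  linear_combination huv

lemma S_smul_mk_eq_iff (g : SL(2, ℤ)) :
    S • (QuotientGroup.mk g : SL(2, ℤ) ⧸ Gamma0 N) = QuotientGroup.mk g ↔
      (N : ℤ) ∣ g 0 0 ^ 2 + g 1 0 ^ 2 := by
  rw [smul_mk, mk_eq_mk_iff, S_mul_apply_zero_zero, S_mul_apply_one_zero, ← dvd_neg]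
  have : -(-g 1 0 * g 1 0 - g 0 0 * g 0 0) = g 0 0 ^ 2 + g 1 0 ^ 2 := by ring
  rw [this]

lemma ST_smul_mk_eq_iff (g : SL(2, ℤ)) :
    (S * T) • (QuotientGroup.mk g : SL(2, ℤ) ⧸ Gamma0 N) = QuotientGroup.mk g ↔
      (N : ℤ) ∣ g 0 0 ^ 2 + g 0 0 * g 1 0 + g 1 0 ^ 2 := by
  rw [smul_mk, mk_eq_mk_iff, mul_assoc, S_mul_apply_zero_zero, S_mul_apply_one_zero,
    T_mul_apply_zero_zero, T_mul_apply_one_zero, ← dvd_neg]
  have : -(-g 1 0 * g 1 0 - (g 0 0 + g 1 0) * g 0 0) =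
      g 0 0 ^ 2 + g 0 0 * g 1 0 + g 1 0 ^ 2 := by ring
  rw [this]

end Fermat.Agent.Gamma0Comb
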