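/-
The index of `Γ₀(N)` in `SL(2,ℤ)` is the Dedekind psi function.
-/
import Fermat.Agent.Gamma0Comb.Basic

set_option autoImplicit false

namespace Fermat.Agent.Gamma0Comb

open scoped MatrixGroups
open CongruenceSubgroup ModularGroup Matrix

/-! ### The recursion for `dedekindPsi` -/

lemma dedekindPsi_mul_of_dvd {p N : ℕ} (hN : N ≠ 0) (hp : p.Prime) (hpN : p ∣ N) :
    ModularCurve.dedekindPsi (p * N) = p * ModularCurve.dedekindPsi N := by
  unfold ModularCurve.dedekindPsi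
  have hset : ((p * N).divisors.filter fun d => Squarefree d) =
      (N.divisors.filter fun d => Squarefree d) := by
    ext d
    simp only [Finset.mem_filter, Nat.mem_divisors]
    constructor
    · rintro ⟨⟨hd, _⟩, hsq⟩
      refine ⟨⟨?_, hN⟩, hsq⟩
      have h1 : d ∣ N ^ 2 := hd.trans (by rw [sq]; exact Nat.mul_dvd_mul_right hpN N)
      exact (hsq.dvd_pow_iff_dvd two_ne_zero).1 h1
    · rintro ⟨⟨hd, _⟩, hsq⟩
      exact ⟨⟨Dvd.dvd.mul_left hd p, mul_ne_zero hp.ne_zero hN⟩, hsq⟩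
  rw [hset, Finset.mul_sum]
  refine Finset.sum_congr rfl fun d hd => ?_
  simp only [Finset.mem_filter, Nat.mem_divisors] at hd
  exact Nat.mul_div_assoc p hd.1.1

lemma dedekindPsi_mul_of_not_dvd {p N : ℕ} (hN : N ≠ 0) (hp : p.Prime) (hpN : ¬ p ∣ N) :
    ModularCurve.dedekindPsi (p * N) = (p + 1) * ModularCurve.dedekindPsi N := by
  unfold ModularCurve.dedekindPsi
  rw [← Finset.sum_filter_add_sum_filter_not _ (fun d => p ∣ d), add_mul, one_mul, add_comm]
  congr 1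
  · -- p ∤ d
    rw [Finset.mul_sum]
    refine Finset.sum_nbij' (fun d => d) (fun d => d) ?_ ?_ (fun _ _ => rfl) (fun _ _ => rfl) ?_
    · intro d hd
      simp only [Finset.mem_filter, Nat.mem_divisors] at hd ⊢
      obtain ⟨⟨⟨hd, _⟩, hsq⟩, hpd⟩ := hd
      refine ⟨⟨?_, hN⟩, hsq⟩
      have hc : d.Coprime p := ((Nat.Prime.coprime_iff_not_dvd hp).2 hpd).symm
      exact hc.dvd_of_dvd_mul_left hd
    · intro d hd
      simp only [Finset.mem_filter, Nat.mem_divisors] at hd ⊢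
      obtain ⟨⟨hd, _⟩, hsq⟩ := hd
      exact ⟨⟨⟨Dvd.dvd.mul_left hd p, mul_ne_zero hp.ne_zero hN⟩, hsq⟩,
        fun h => hpN (h.trans hd)⟩
    · intro d hd
      simp only [Finset.mem_filter, Nat.mem_divisors] at hd
      obtain ⟨⟨⟨hd, _⟩, hsq⟩, hpd⟩ := hd
      have hc : d.Coprime p := ((Nat.Prime.coprime_iff_not_dvd hp).2 hpd).symm
      exact Nat.mul_div_assoc p (hc.dvd_of_dvd_mul_left hd)
  · -- p ∣ d
    refine Finset.sum_nbij' (fun d => d / p) (fun d => p * d) ?_ ?_ ?_ ?_ ?_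
    · intro d hd
      simp only [Finset.mem_filter, Nat.mem_divisors] at hd ⊢
      obtain ⟨⟨⟨hd, _⟩, hsq⟩, e, rfl⟩ := hd
      rw [Nat.mul_div_cancel_left _ hp.pos]
      exact ⟨⟨Nat.dvd_of_mul_dvd_mul_left hp.pos hd, hN⟩, hsq.of_mul_right⟩
    · intro d hd
      simp only [Finset.mem_filter, Nat.mem_divisors] at hd ⊢
      obtain ⟨⟨hd, _⟩, hsq⟩ := hd
      refine ⟨⟨⟨Nat.mul_dvd_mul_left p hd, mul_ne_zero hp.ne_zero hN⟩, ?_⟩, Dvd.intro _ rfl⟩
      rw [Nat.squarefree_mul_iff]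
      exact ⟨(Nat.Prime.coprime_iff_not_dvd hp).2 fun h => hpN (h.trans hd),
        hp.prime.squarefree, hsq⟩
    · intro d hd
      simp only [Finset.mem_filter, Nat.mem_divisors] at hd
      exact Nat.mul_div_cancel' hd.2
    · intro d _
      exact Nat.mul_div_cancel_left _ hp.pos
    · intro d hd
      simp only [Finset.mem_filter, Nat.mem_divisors] at hd
      obtain ⟨_, e, rfl⟩ := hd
      rw [Nat.mul_div_cancel_left _ hp.pos, Nat.mul_div_mul_left _ _ hp.pos]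

/-! ### A general index lemma -/

lemma index_eq_card_of_surjective {G α : Type*} [Group G] (H : Subgroup G) (f : G → α)
    (hf : Function.Surjective f) (h : ∀ x y, f x = f y ↔ x⁻¹ * y ∈ H) :
    H.index = Nat.card α := by
  rw [Subgroup.index_eq_card]
  refine Nat.card_congr (Equiv.ofBijective
    (Quotient.lift f fun x y hxy => (h x y).2 (QuotientGroup.leftRel_apply.1 hxy)) ⟨?_, ?_⟩)
  · intro x y
    induction x using Quotient.inductionOn
    induction y using Quotient.inductionOn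
    intro hxy
    exact Quotient.sound (QuotientGroup.leftRel_apply.2 ((h _ _).1 hxy))
  · intro a
    obtain ⟨x, rfl⟩ := hf a
    exact ⟨Quotient.mk _ x, rfl⟩

/-! ### The relative index of `Γ₀(pN)` in `Γ₀(N)` -/

/-- The slope `(c / N) / a ∈ P¹(𝔽_p)` of the first column of an element of `Γ₀(N)`. -/
noncomputable def slope (p N : ℕ) [Fact p.Prime] (g : SL(2, ℤ)) : Option (ZMod p) :=
  if ((g 0 0 : ℤ) : ZMod p) = 0 then none
  else some (((g 1 0 / (N : ℤ) : ℤ) : ZMod p) / ((g 0 0 : ℤ) : ZMod p))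

lemma option_slope_eq_iff {F : Type*} [Field F] [DecidableEq F] {a c a' c' : F}
    (h : ¬ (a = 0 ∧ c = 0)) (h' : ¬ (a' = 0 ∧ c' = 0)) :
    ((if a = 0 then none else some (c / a) : Option F) = if a' = 0 then none else some (c' / a'))
      ↔ a * c' - c * a' = 0 := by
  by_cases ha : a = 0 <;> by_cases ha' : a' = 0
  · simp [ha, ha']
  · have hc : c ≠ 0 := fun hc => h ⟨ha, hc⟩
    simp [ha, ha', hc]
  · have hc' : c' ≠ 0 := fun hc => h' ⟨ha', hc⟩
    simp [ha, ha', hc']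
  · simp only [ha, ha', if_false, Option.some.injEq]
    rw [div_eq_div_iff ha ha', sub_eq_zero]
    constructor
    · intro h; linear_combination -h
    · intro h; linear_combination -h

lemma slope_eq_iff {p N : ℕ} [Fact p.Prime] (hN : N ≠ 0) {g g' : SL(2, ℤ)}
    (hg : g ∈ Gamma0 N) (hg' : g' ∈ Gamma0 N) :
    slope p N g = slope p N g' ↔ g⁻¹ * g' ∈ Gamma0 (p * N) := by
  have hp : p.Prime := Fact.out
  have hNz : (N : ℤ) ≠ 0 := by exact_mod_cast hN
  obtain ⟨c₁, hc₁⟩ := (mem_Gamma0_iff_dvd g).1 hg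
  obtain ⟨c₁', hc₁'⟩ := (mem_Gamma0_iff_dvd g').1 hg'
  have e1 : g 1 0 / (N : ℤ) = c₁ := by rw [hc₁]; exact Int.mul_ediv_cancel_left _ hNz
  have e2 : g' 1 0 / (N : ℤ) = c₁' := by rw [hc₁']; exact Int.mul_ediv_cancel_left _ hNz
  have hnz : ∀ (h : SL(2, ℤ)) (d : ℤ), h 1 0 = N * d →
      ¬ (((h 0 0 : ℤ) : ZMod p) = 0 ∧ ((d : ℤ) : ZMod p) = 0) := by
    rintro h d hd ⟨h1, h2⟩
    rw [ZMod.intCast_zmod_eq_zero_iff_dvd] at h1 h2
    have hcop := isCoprime_col h
    rw [hd] at hcop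
    have : IsUnit (p : ℤ) := hcop.isUnit_of_dvd' h1 (Dvd.dvd.mul_left h2 _)
    rw [Int.isUnit_iff] at this
    have := hp.two_le
    omega
  unfold slope
  rw [e1, e2, option_slope_eq_iff (hnz g c₁ hc₁) (hnz g' c₁' hc₁'), mem_Gamma0_iff_dvd,
    inv_mul_apply_one_zero, hc₁, hc₁']
  have : g 0 0 * (↑N * c₁') - ↑N * c₁ * g' 0 0 = (N : ℤ) * (g 0 0 * c₁' - c₁ * g' 0 0) := by ring
  rw [this]
  push_cast
  rw [mul_comm (p : ℤ) (N : ℤ), mul_dvd_mul_iff_left hNz, ← ZMod.intCast_zmod_eq_zero_iff_dvd]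
  push_cast
  rfl

lemma Gamma0_mul_le (p N : ℕ) : Gamma0 (p * N) ≤ Gamma0 N := by
  intro g hg
  rw [mem_Gamma0_iff_dvd] at hg ⊢
  exact (Dvd.intro_left (p : ℤ) (by push_cast; ring)).trans hg

lemma exists_slope_some {p N : ℕ} [Fact p.Prime] (hN : N ≠ 0) (t : ZMod p) :
    ∃ g ∈ Gamma0 N, slope p N g = some t := by
  have hNz : (N : ℤ) ≠ 0 := by exact_mod_cast hN
  obtain ⟨g, hg0, hg1⟩ := exists_col (a := 1) (c := N * (t.cast : ℤ)) isCoprime_one_left
  refine ⟨g, (mem_Gamma0_iff_dvd g).2 (hg1 ▸ Dvd.intro _ rfl), ?_⟩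
  unfold slope
  rw [hg0, hg1, Int.mul_ediv_cancel_left _ hNz]
  simp

lemma exists_slope_none {p N : ℕ} [Fact p.Prime] (hpN : ¬ p ∣ N) :
    ∃ g ∈ Gamma0 N, slope p N g = none := by
  have hp : p.Prime := Fact.out
  have hcop : IsCoprime (p : ℤ) (N : ℤ) :=
    Nat.isCoprime_iff_coprime.2 ((Nat.Prime.coprime_iff_not_dvd hp).2 hpN)
  obtain ⟨g, hg0, hg1⟩ := exists_col hcop
  refine ⟨g, (mem_Gamma0_iff_dvd g).2 (hg1 ▸ dvd_rfl), ?_⟩
  unfold slope
  rw [hg0]
  simp

lemma slope_ne_none {p N : ℕ} [Fact p.Prime] (hpN : p ∣ N) {g : SL(2, ℤ)} (hg : g ∈ Gamma0 N) :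
    slope p N g ≠ none := by
  have hp : p.Prime := Fact.out
  unfold slope
  have : ((g 0 0 : ℤ) : ZMod p) ≠ 0 := by
    intro h
    rw [ZMod.intCast_zmod_eq_zero_iff_dvd] at h
    have h2 : (p : ℤ) ∣ g 1 0 :=
      (Int.natCast_dvd_natCast.2 hpN).trans ((mem_Gamma0_iff_dvd g).1 hg)
    have : IsUnit (p : ℤ) := (isCoprime_col g).isUnit_of_dvd' h h2
    rw [Int.isUnit_iff] at this
    have := hp.two_le
    omega
  simp [this]

lemma relIndex_of_not_dvd {p N : ℕ} (hp : p.Prime) (hN : N ≠ 0) (hpN : ¬ p ∣ N) :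
    (Gamma0 (p * N)).relIndex (Gamma0 N) = p + 1 := by
  have : Fact p.Prime := ⟨hp⟩
  rw [Subgroup.relIndex, index_eq_card_of_surjective _
    (fun g : Gamma0 N => slope p N g.1) ?_ ?_, Finite.card_option, Nat.card_zmod]
  · rintro (_ | t)
    · obtain ⟨g, hg, h⟩ := exists_slope_none hpN
      exact ⟨⟨g, hg⟩, h⟩
    · obtain ⟨g, hg, h⟩ := exists_slope_some hN t
      exact ⟨⟨g, hg⟩, h⟩
  · intro x y
    rw [Subgroup.mem_subgroupOf]
    exact slope_eq_iff hN x.2 y.2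

lemma relIndex_of_dvd {p N : ℕ} (hp : p.Prime) (hN : N ≠ 0) (hpN : p ∣ N) :
    (Gamma0 (p * N)).relIndex (Gamma0 N) = p := by
  have : Fact p.Prime := ⟨hp⟩
  rw [Subgroup.relIndex, index_eq_card_of_surjective _
    (fun g : Gamma0 N => (slope p N g.1).get (Option.isSome_iff_ne_none.2 (slope_ne_none hpN g.2)))
    ?_ ?_, Nat.card_zmod]
  · intro t
    obtain ⟨g, hg, h⟩ := exists_slope_some hN t
    exact ⟨⟨g, hg⟩, by simp [h]⟩
  · intro x y
    rw [Subgroup.mem_subgroupOf]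
    have := slope_eq_iff (p := p) hN x.2 y.2
    rw [Subgroup.coe_mul, Subgroup.coe_inv, ← this]
    constructor
    · intro h
      exact Option.get_inj.1 h
    · intro h
      simp only [h]

theorem index_Gamma0 (N : ℕ) [NeZero N] : (Gamma0 N).index = ModularCurve.dedekindPsi N := by
  have key : ∀ N : ℕ, N ≠ 0 → (Gamma0 N).index = ModularCurve.dedekindPsi N := by
    intro N
    induction N using induction_on_primes with
    | zero => intro h; exact absurd rfl h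
    | one =>
      intro _
      have : Gamma0 1 = ⊤ := by
        ext g
        simp [Gamma0_mem, eq_iff_true_of_subsingleton]
      rw [this, Subgroup.index_top, ModularCurve.dedekindPsi_one]
    | prime_mul p a hp ih =>
      intro hpa
      have ha : a ≠ 0 := fun h => hpa (by rw [h, mul_zero])
      rw [← Subgroup.relIndex_mul_index (Gamma0_mul_le p a), ih ha]
      by_cases hpa' : p ∣ a
      · rw [relIndex_of_dvd hp ha hpa', dedekindPsi_mul_of_dvd ha hp hpa']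
      · rw [relIndex_of_not_dvd hp ha hpa', dedekindPsi_mul_of_not_dvd ha hp hpa']
  exact key N (NeZero.ne N)

end Fermat.Agent.Gamma0Comb
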