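/-
Fixed points of `S` and `S * T` on `SL(2,ℤ) ⧸ Γ₀(N)`.
-/
import Fermat.Agent.Gamma0Comb.Basic

set_option autoImplicit false

namespace Fermat.Agent.Gamma0Comb

open scoped MatrixGroups
open CongruenceSubgroup ModularGroup Matrix

variable {N : ℕ}

lemma mk_eq_mk_iff_zmod (g h : SL(2, ℤ)) :
    (QuotientGroup.mk g : SL(2, ℤ) ⧸ Gamma0 N) = QuotientGroup.mk h ↔
      ((g 0 0 : ℤ) : ZMod N) * ((h 1 0 : ℤ) : ZMod N) - ((g 1 0 : ℤ) : ZMod N) * ((h 0 0 : ℤ) : ZMod N) = 0 := by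
  rw [mk_eq_mk_iff, ← ZMod.intCast_zmod_eq_zero_iff_dvd]
  push_cast
  rfl

/-- The representative `[[x, -1], [1, 0]]`. -/
def repOf (x : ℤ) : SL(2, ℤ) := ⟨!![x, -1; 1, 0], by rw [Matrix.det_fin_two_of]; ring⟩

@[simp] lemma repOf_zero_zero (x : ℤ) : repOf x 0 0 = x := rfl
@[simp] lemma repOf_one_zero (x : ℤ) : repOf x 1 0 = 1 := rfl

/-- General count: cosets `(a : c)` with `a² + t a c + c² ≡ 0` correspond to roots of
`x² + t x + 1` in `ZMod N`. -/
lemma card_quadratic (t : ℤ) (Fix : Set (SL(2, ℤ) ⧸ Gamma0 N))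
    (hFix : ∀ g : SL(2, ℤ), (QuotientGroup.mk g : SL(2, ℤ) ⧸ Gamma0 N) ∈ Fix ↔
      (N : ℤ) ∣ g 0 0 ^ 2 + t * (g 0 0 * g 1 0) + g 1 0 ^ 2) :
    Nat.card Fix = Nat.card {x : ZMod N // x ^ 2 + (t : ZMod N) * x + 1 = 0} := by
  symm
  have hmem : ∀ x : {x : ZMod N // x ^ 2 + (t : ZMod N) * x + 1 = 0},
      (QuotientGroup.mk (repOf (x.1.cast : ℤ)) : SL(2, ℤ) ⧸ Gamma0 N) ∈ Fix := by
    intro x
    rw [hFix, ← ZMod.intCast_zmod_eq_zero_iff_dvd]
    simp only [repOf_zero_zero, repOf_one_zero]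
    push_cast
    have := x.2
    linear_combination this
  refine Nat.card_congr (Equiv.ofBijective
    (fun x => ⟨QuotientGroup.mk (repOf (x.1.cast : ℤ)), hmem x⟩) ⟨?_, ?_⟩)
  · intro x y hxy
    have h1 := congrArg Subtype.val hxy
    simp only at h1
    rw [mk_eq_mk_iff_zmod] at h1
    simp only [repOf_zero_zero, repOf_one_zero] at h1
    rw [ZMod.intCast_cast, ZMod.cast_id', id, ZMod.intCast_cast, ZMod.cast_id', id] at h1
    apply Subtype.ext
    push_cast at h1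
    linear_combination h1
  · rintro ⟨q, hq⟩
    obtain ⟨g, rfl⟩ := QuotientGroup.mk_surjective q
    have hg := (hFix g).1 hq
    rw [← ZMod.intCast_zmod_eq_zero_iff_dvd] at hg
    push_cast at hg
    set a : ZMod N := ((g 0 0 : ℤ) : ZMod N) with ha
    set c : ZMod N := ((g 1 0 : ℤ) : ZMod N) with hc
    obtain ⟨u, v, huv⟩ := isCoprime_col g
    have huv' : (u : ZMod N) * a + (v : ZMod N) * c = 1 := by
      have := congrArg (Int.cast : ℤ → ZMod N) huv
      push_cast at this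
      exact this
    -- inverse of c
    set w : ZMod N := - (u : ZMod N) ^ 2 * ((t : ZMod N) * a + c) + 2 * u * v * a + v ^ 2 * c with hw
    have hcw : c * w = 1 := by
      have h2 : ((u : ZMod N) * a + (v : ZMod N) * c) ^ 2 = 1 := by rw [huv']; ring
      rw [hw]
      linear_combination h2 - (u : ZMod N) ^ 2 * hg
    have hx : (a * w) ^ 2 + (t : ZMod N) * (a * w) + 1 = 0 := by
      linear_combination w ^ 2 * hg - ((t : ZMod N) * a * w + 1 + c * w) * hcw
    refine ⟨⟨a * w, hx⟩, ?_⟩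
    apply Subtype.ext
    simp only
    rw [mk_eq_mk_iff_zmod]
    simp only [repOf_zero_zero, repOf_one_zero]
    rw [ZMod.intCast_cast, ZMod.cast_id', id]
    push_cast
    rw [← ha, ← hc]
    linear_combination a * hcw

theorem card_fixedBy_S :
    Nat.card (MulAction.fixedBy (SL(2, ℤ) ⧸ Gamma0 N) S) = ModularCurve.nuTwo N := by
  have := card_quadratic (N := N) 0 (MulAction.fixedBy (SL(2, ℤ) ⧸ Gamma0 N) S) (by
    intro g
    rw [MulAction.mem_fixedBy, S_smul_mk_eq_iff]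
    simp)
  rw [this, ModularCurve.nuTwo]
  simp

theorem card_fixedBy_ST :
    Nat.card (MulAction.fixedBy (SL(2, ℤ) ⧸ Gamma0 N) (S * T)) = ModularCurve.nuThree N := by
  have := card_quadratic (N := N) 1 (MulAction.fixedBy (SL(2, ℤ) ⧸ Gamma0 N) (S * T)) (by
    intro g
    rw [MulAction.mem_fixedBy, ST_smul_mk_eq_iff]
    simp)
  rw [this, ModularCurve.nuThree]
  simp

end Fermat.Agent.Gamma0Comb
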