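/-
Combinatorics of `SL(2,ℤ) ⧸ Γ₀(N)`: summary file.

* `Fermat.Agent.Gamma0Comb.index_Gamma0`    : index of `Γ₀(N)` is `dedekindPsi N`
* `Fermat.Agent.Gamma0Comb.card_fixedBy_S`  : number of fixed points of `S` is `nuTwo N`
* `Fermat.Agent.Gamma0Comb.card_fixedBy_ST` : number of fixed points of `S * T` is `nuThree N`
* `Fermat.Agent.Gamma0Comb.card_orbits_T`   : number of `T`-orbits is `cuspCount N`
-/
import Fermat.Agent.Gamma0Comb.Basic
import Fermat.Agent.Gamma0Comb.Fixed
import Fermat.Agent.Gamma0Comb.Cusps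
import Fermat.Agent.Gamma0Comb.Index
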