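/-
Orbits of `T` on `SL(2,ℤ) ⧸ Γ₀(N)` (the cusps of `Γ₀(N)`).
-/
import Fermat.Agent.Gamma0Comb.Basic

set_option autoImplicit false

namespace Fermat.Agent.Gamma0Comb

open scoped MatrixGroups
open CongruenceSubgroup ModularGroup Matrix

/-- If `(a:c)` and `(a':c')` are in the same `T`-orbit mod `N = δ M = δ' M'`, where
`c = δ c₁`, `c' = δ' c₁'`, then `δ ∣ δ'`. -/
lemma dvd_of_orbit {a c₁ a' c₁' δ δ' M M' n : ℤ}
    (h : IsCoprime a (δ * c₁)) (hM' : IsCoprime c₁' M') (hN : δ * M = δ' * M')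
    (hdvd : δ * M ∣ (a + n * (δ * c₁)) * (δ' * c₁') - (δ * c₁) * a') : δ ∣ δ' := by
  -- δ ∣ a * δ' * c₁'
  have h1 : δ ∣ a * (δ' * c₁') := by
    have h2 : δ ∣ (a + n * (δ * c₁)) * (δ' * c₁') - (δ * c₁) * a' :=
      (Dvd.intro _ rfl).trans hdvd
    have h3 : a * (δ' * c₁') = ((a + n * (δ * c₁)) * (δ' * c₁') - (δ * c₁) * a')
        + δ * (c₁ * a' - n * c₁ * (δ' * c₁')) := by ring
    rw [h3]
    exact dvd_add h2 (Dvd.intro _ rfl)
  have hcop : IsCoprime δ a := (IsCoprime.of_mul_right_left h).symm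
  have h4 : δ ∣ δ' * c₁' := hcop.dvd_of_dvd_mul_left h1
  -- δ ∣ δ' * M' as well
  have h5 : δ ∣ δ' * M' := hN ▸ Dvd.intro _ rfl
  obtain ⟨u, v, huv⟩ := hM'
  have : δ' = u * (δ' * c₁') + v * (δ' * M') := by linear_combination -δ' * huv
  rw [this]
  exact dvd_add (Dvd.dvd.mul_left h4 _) (Dvd.dvd.mul_left h5 _)

/-- The orbit criterion for equal `δ`. -/
lemma orbit_iff {a c₁ a' c₁' δ M g₀ : ℤ} (hδ : δ ≠ 0)
    (hM : IsCoprime c₁ M) (hM' : IsCoprime c₁' M)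
    (hg1 : g₀ ∣ δ) (hg2 : g₀ ∣ M) (hg3 : ∃ x y, g₀ = x * δ + y * M) :
    (∃ n : ℤ, δ * M ∣ (a + n * (δ * c₁)) * (δ * c₁') - (δ * c₁) * a') ↔
      g₀ ∣ a * c₁' - a' * c₁ := by
  constructor
  · rintro ⟨n, k, hk⟩
    have h1 : a * c₁' - a' * c₁ = M * k - n * δ * c₁ * c₁' := by
      apply mul_left_cancel₀ hδ
      linear_combination hk
    rw [h1]
    exact dvd_sub (Dvd.dvd.mul_right hg2 _)
      (Dvd.dvd.mul_right (Dvd.dvd.mul_right (Dvd.dvd.mul_left hg1 _) _) _)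
  · rintro ⟨k, hk⟩
    obtain ⟨x, y, hxy⟩ := hg3
    obtain ⟨z, w, hzw⟩ := IsCoprime.mul_left hM hM'
    refine ⟨-k * x * z, k * (x * δ * w + y), ?_⟩
    have : (a + -k * x * z * (δ * c₁)) * (δ * c₁') - δ * c₁ * a'
        = δ * ((a * c₁' - a' * c₁) - k * x * δ * (z * (c₁ * c₁'))) := by ring
    rw [this, hk, hxy]
    have hz : z * (c₁ * c₁') = 1 - w * M := by linear_combination hzw
    rw [hz]
    ring

variable {N : ℕ}

/-- The orbit space of `T`. -/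
abbrev TOrbits (N : ℕ) : Type :=
  MulAction.orbitRel.Quotient (Subgroup.zpowers T) (SL(2, ℤ) ⧸ Gamma0 N)

/-- The class of `g` in the space of `T`-orbits. -/
def orbMk (g : SL(2, ℤ)) : TOrbits N :=
  Quotient.mk'' (QuotientGroup.mk g : SL(2, ℤ) ⧸ Gamma0 N)

lemma orbMk_surjective : Function.Surjective (orbMk (N := N)) := by
  intro q
  induction q using Quotient.inductionOn' with
  | h x =>
    obtain ⟨g, rfl⟩ := QuotientGroup.mk_surjective x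
    exact ⟨g, rfl⟩

lemma orbMk_eq_iff (g g' : SL(2, ℤ)) :
    (orbMk g : TOrbits N) = orbMk g' ↔
      ∃ n : ℤ, (N : ℤ) ∣ (g' 0 0 + n * g' 1 0) * g 1 0 - g' 1 0 * g 0 0 := by
  unfold orbMk
  rw [Quotient.eq'', MulAction.orbitRel_apply, MulAction.mem_orbit_iff]
  constructor
  · rintro ⟨⟨t, ht⟩, h⟩
    obtain ⟨n, rfl⟩ := Subgroup.mem_zpowers_iff.1 ht
    refine ⟨n, ?_⟩
    have h' : (T ^ n) • (QuotientGroup.mk g' : SL(2, ℤ) ⧸ Gamma0 N) = QuotientGroup.mk g := h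
    rw [smul_mk, mk_eq_mk_iff, T_zpow_mul_apply_zero_zero, T_zpow_mul_apply_one_zero] at h'
    exact h'
  · rintro ⟨n, h⟩
    refine ⟨⟨T ^ n, Subgroup.zpow_mem_zpowers T n⟩, ?_⟩
    show (T ^ n) • (QuotientGroup.mk g' : SL(2, ℤ) ⧸ Gamma0 N) = QuotientGroup.mk g
    rw [smul_mk, mk_eq_mk_iff, T_zpow_mul_apply_zero_zero, T_zpow_mul_apply_one_zero]
    exact h

/-- The index set for the cusps of `Γ₀(N)`. -/
abbrev CuspIndex (N : ℕ) : Type :=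
  Σ δ : {d // d ∈ N.divisors}, (ZMod (Nat.gcd δ (N / δ)))ˣ

lemma exists_lift {δ g₀ : ℕ} (hδ : δ ≠ 0) (h : g₀ ∣ δ) (u : (ZMod g₀)ˣ) :
    ∃ a : ℤ, IsCoprime a (δ : ℤ) ∧ ((a : ℤ) : ZMod g₀) = u := by
  have : NeZero δ := ⟨hδ⟩
  obtain ⟨u', hu'⟩ := ZMod.unitsMap_surjective h u
  refine ⟨((u' : ZMod δ).val : ℤ), ?_, ?_⟩
  · have h1 : IsUnit (((u' : ZMod δ).val : ℕ) : ZMod δ) := by
      rw [ZMod.natCast_zmod_val]; exact u'.isUnit
    rw [ZMod.isUnit_iff_coprime] at h1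
    exact Nat.isCoprime_iff_coprime.2 h1
  · rw [← hu', ZMod.unitsMap_val]
    simp only [Int.cast_natCast]
    rw [ZMod.natCast_val]

lemma exists_cuspRep (x : CuspIndex N) :
    ∃ g : SL(2, ℤ), g 1 0 = ((x.1 : ℕ) : ℤ) ∧
      ((g 0 0 : ℤ) : ZMod (Nat.gcd x.1 (N / x.1))) = x.2 := by
  obtain ⟨⟨δ, hδ⟩, u⟩ := x
  have hδ0 : δ ≠ 0 := (Nat.pos_of_mem_divisors hδ).ne'
  obtain ⟨a, ha, hau⟩ := exists_lift hδ0 (Nat.gcd_dvd_left δ (N / δ)) u
  obtain ⟨g, hg0, hg1⟩ := exists_col ha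
  exact ⟨g, hg1, by rw [hg0]; exact hau⟩

/-- A representative of the cusp with index `x`. -/
noncomputable def cuspRep (x : CuspIndex N) : SL(2, ℤ) := (exists_cuspRep x).choose

lemma cuspRep_one_zero (x : CuspIndex N) : cuspRep x 1 0 = ((x.1 : ℕ) : ℤ) :=
  (exists_cuspRep x).choose_spec.1

lemma cuspRep_zero_zero (x : CuspIndex N) :
    ((cuspRep x 0 0 : ℤ) : ZMod (Nat.gcd x.1 (N / x.1))) = x.2 :=
  (exists_cuspRep x).choose_spec.2

lemma bezout_nat (δ M : ℕ) : ∃ x y : ℤ, ((Nat.gcd δ M : ℕ) : ℤ) = x * δ + y * M := by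
  refine ⟨Int.gcdA δ M, Int.gcdB δ M, ?_⟩
  have := Int.gcd_eq_gcd_ab (δ : ℤ) (M : ℤ)
  rw [Int.gcd_natCast_natCast] at this
  rw [this]; ring

lemma cuspRep_injective : Function.Injective (fun x : CuspIndex N => (orbMk (cuspRep x) : TOrbits N)) := by
  intro x y hxy
  simp only at hxy
  have h1 := (orbMk_eq_iff _ _).1 hxy
  have h2 := (orbMk_eq_iff _ _).1 hxy.symm
  obtain ⟨n1, h1⟩ := h1
  obtain ⟨n2, h2⟩ := h2
  have hcx := isCoprime_col (cuspRep x)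
  have hcy := isCoprime_col (cuspRep y)
  have hax := cuspRep_zero_zero x
  have hay := cuspRep_zero_zero y
  rw [cuspRep_one_zero] at hcx hcy
  rw [cuspRep_one_zero, cuspRep_one_zero] at h1 h2
  generalize cuspRep x 0 0 = a at *
  generalize cuspRep y 0 0 = a' at *
  obtain ⟨⟨δ, hδ⟩, u⟩ := x
  obtain ⟨⟨δ', hδ'⟩, u'⟩ := y
  simp only at h1 h2 hcx hcy hax hay
  have hδN : δ * (N / δ) = N := Nat.mul_div_cancel' (Nat.dvd_of_mem_divisors hδ)
  have hδ'N : δ' * (N / δ') = N := Nat.mul_div_cancel' (Nat.dvd_of_mem_divisors hδ')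
  have hδNz : (δ : ℤ) * ((N / δ : ℕ) : ℤ) = N := by exact_mod_cast hδN
  have hδ'Nz : (δ' : ℤ) * ((N / δ' : ℕ) : ℤ) = N := by exact_mod_cast hδ'N
  have e1 : (δ' : ℤ) ∣ δ := by
    apply dvd_of_orbit (a := a') (c₁ := 1) (a' := a) (c₁' := 1) (δ := δ') (δ' := δ)
      (M := ((N / δ' : ℕ) : ℤ)) (M' := ((N / δ : ℕ) : ℤ)) (n := n1)
    · simpa using hcy
    · exact isCoprime_one_left
    · rw [hδNz, hδ'Nz]
    · rw [hδ'Nz]; simpa using h1
  have e2 : (δ : ℤ) ∣ δ' := by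
    apply dvd_of_orbit (a := a) (c₁ := 1) (a' := a') (c₁' := 1) (δ := δ) (δ' := δ')
      (M := ((N / δ : ℕ) : ℤ)) (M' := ((N / δ' : ℕ) : ℤ)) (n := n2)
    · simpa using hcx
    · exact isCoprime_one_left
    · rw [hδNz, hδ'Nz]
    · rw [hδNz]; simpa using h2
  have e : δ = δ' := Nat.dvd_antisymm (Int.natCast_dvd_natCast.1 e2) (Int.natCast_dvd_natCast.1 e1)
  subst e
  have hδ0 : (δ : ℤ) ≠ 0 := by exact_mod_cast (Nat.pos_of_mem_divisors hδ).ne'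
  have key := (orbit_iff (a := a) (c₁ := 1) (a' := a') (c₁' := 1) (δ := δ)
    (M := ((N / δ : ℕ) : ℤ)) (g₀ := ((Nat.gcd δ (N / δ) : ℕ) : ℤ)) hδ0 isCoprime_one_left
    isCoprime_one_left (Int.natCast_dvd_natCast.2 (Nat.gcd_dvd_left _ _))
    (Int.natCast_dvd_natCast.2 (Nat.gcd_dvd_right _ _)) (bezout_nat _ _)).1
      ⟨n2, by rw [hδNz]; simpa using h2⟩
  have huu : u = u' := by
    apply Units.ext
    rw [← hax, ← hay, ZMod.intCast_eq_intCast_iff_dvd_sub, ← dvd_neg]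
    simpa using key
  rw [huu]

lemma cuspRep_surjective [NeZero N] :
    Function.Surjective (fun x : CuspIndex N => (orbMk (cuspRep x) : TOrbits N)) := by
  intro q
  obtain ⟨g, rfl⟩ := orbMk_surjective q
  have hN : N ≠ 0 := NeZero.ne N
  have hcop := isCoprime_col g
  set a := g 0 0 with ha
  set c := g 1 0 with hc
  set δ : ℕ := Int.gcd c N with hδ
  have hδN : δ ∣ N := by
    have : (δ : ℤ) ∣ (N : ℤ) := Int.gcd_dvd_right c N
    exact Int.natCast_dvd_natCast.1 this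
  have hδpos : 0 < δ := Nat.pos_of_dvd_of_pos hδN (Nat.pos_of_ne_zero hN)
  have hδmem : δ ∈ N.divisors := Nat.mem_divisors.2 ⟨hδN, hN⟩
  obtain ⟨c₁, hc₁⟩ : (δ : ℤ) ∣ c := Int.gcd_dvd_left c N
  set M : ℕ := N / δ with hM
  have hδM : δ * M = N := Nat.mul_div_cancel' hδN
  have hδMz : (δ : ℤ) * (M : ℤ) = N := by exact_mod_cast hδM
  have hδ0 : (δ : ℤ) ≠ 0 := by exact_mod_cast hδpos.ne'
  have hcopM : IsCoprime c₁ (M : ℤ) := by
    have h1 := Int.gcd_div_gcd_div_gcd (i := c) (j := (N : ℤ)) hδpos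
    rw [← hδ] at h1
    have e1 : c / (δ : ℤ) = c₁ := by rw [hc₁]; exact Int.mul_ediv_cancel_left _ hδ0
    have e2 : (N : ℤ) / (δ : ℤ) = M := by rw [← hδMz]; exact Int.mul_ediv_cancel_left _ hδ0
    rw [e1, e2] at h1
    exact Int.isCoprime_iff_gcd_eq_one.2 h1
  set g₀ : ℕ := Nat.gcd δ M with hg₀
  have hg1 : (g₀ : ℤ) ∣ δ := Int.natCast_dvd_natCast.2 (Nat.gcd_dvd_left _ _)
  have hg2 : (g₀ : ℤ) ∣ M := Int.natCast_dvd_natCast.2 (Nat.gcd_dvd_right _ _)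
  have hua : IsUnit ((a : ℤ) : ZMod g₀) := by
    rw [ZMod.coe_int_isUnit_iff_isCoprime]
    have : IsCoprime a (δ : ℤ) := by
      rw [hc₁] at hcop
      exact IsCoprime.of_mul_right_left hcop
    exact (this.of_isCoprime_of_dvd_right hg1).symm
  have huc : IsUnit ((c₁ : ℤ) : ZMod g₀) := by
    rw [ZMod.coe_int_isUnit_iff_isCoprime]
    exact (hcopM.of_isCoprime_of_dvd_right hg2).symm
  let x : CuspIndex N := ⟨⟨δ, hδmem⟩, hua.unit * huc.unit⁻¹⟩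
  refine ⟨x, ?_⟩
  simp only
  rw [orbMk_eq_iff, cuspRep_one_zero]
  have hx0 := cuspRep_zero_zero x
  generalize cuspRep x 0 0 = a' at *
  have hx0' : ((a' : ℤ) : ZMod g₀) = (hua.unit * huc.unit⁻¹ : (ZMod g₀)ˣ) := hx0
  have key := (orbit_iff (a := a) (c₁ := c₁) (a' := a') (c₁' := 1) (δ := δ)
    (M := (M : ℤ)) (g₀ := (g₀ : ℤ)) hδ0 hcopM isCoprime_one_left hg1 hg2 (bezout_nat _ _)).2 (by
      rw [← ZMod.intCast_zmod_eq_zero_iff_dvd]
      push_cast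
      rw [hx0']
      have h3 : ((huc.unit⁻¹ : (ZMod g₀)ˣ) : ZMod g₀) * ((c₁ : ℤ) : ZMod g₀) = 1 := by
        have := huc.unit.inv_mul
        simp
      have h4 : ((hua.unit : (ZMod g₀)ˣ) : ZMod g₀) = ((a : ℤ) : ZMod g₀) := hua.unit_spec
      rw [Units.val_mul, h4]
      linear_combination (-((a : ℤ) : ZMod g₀)) * h3)
  obtain ⟨n, hn⟩ := key
  refine ⟨n, ?_⟩
  rw [hδMz] at hn
  show (N : ℤ) ∣ (a + n * c) * (δ : ℤ) - c * a'
  rw [hc₁]
  simpa using hn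

theorem card_orbits_T [NeZero N] :
    Nat.card (MulAction.orbitRel.Quotient (Subgroup.zpowers T) (SL(2, ℤ) ⧸ Gamma0 N)) =
      ModularCurve.cuspCount N := by
  have hN : N ≠ 0 := NeZero.ne N
  rw [← Nat.card_congr (Equiv.ofBijective _ ⟨cuspRep_injective (N := N), cuspRep_surjective⟩)]
  have hne : ∀ δ : {d // d ∈ N.divisors}, NeZero (Nat.gcd δ (N / δ)) := fun δ =>
    ⟨Nat.gcd_ne_zero_left (Nat.pos_of_mem_divisors δ.2).ne'⟩
  rw [Nat.card_sigma, ModularCurve.cuspCount,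
    ← Finset.sum_coe_sort N.divisors (fun d => Nat.totient (Nat.gcd d (N / d)))]
  refine Finset.sum_congr rfl fun δ _ => ?_
  have := hne δ
  rw [Nat.card_eq_fintype_card, ZMod.card_units_eq_totient]

end Fermat.Agent.Gamma0Comb
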